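/-
S45, project CARAYOL-K (chief helper122), block K: the ABSTRACT MODEL of `X₀(q^k N₀)`, `k ≥ 3`, over
the ring of integers `A₀` of the inertia field.  Blueprint: report #1687.

Same language as `S36/BP/Defs.lean` (whose definitions `RUnit`, `rad`, `locSub`, `Through`, `Away`,
`Princ`, `HorDiv`, `IsConstPow`, `BaseHyp`, `IsPt` are reused verbatim), with
* an arbitrary index type `κ` for the vertical valuations `V c` (uniformiser `ϖ c`,
  multiplicity `≤ E`);
* the key new hypothesis `rad`: every vertical valuation is RADICIAL for `α` or for `β`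
  (it is the only extension of its restriction, and the residue extension is purely inseparable);
* `N₀ = (embedding) ∘ (norm)` to the common subfield `E₀ = αβ F_{k-2}` of `Eα`, `Eβ`, which ties the
  two families of components.
-/
import Mathlib
import Fermat.Agent.S18.Defs
import Fermat.Agent.S36.BP.Defs

set_option autoImplicit false

noncomputable section

namespace Fermat.Agent.S45.K

open Fermat.Agent.S18 Fermat.Agent.S36.BP IntermediateField

section Basic

variable {F : Type*} [Field F]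

/-- `W` is radicial for `N = (embedding) ∘ (norm)` of degree `q`: `W` is the only extension of its
restriction and the residue extension is purely inseparable (possibly trivial). -/
structure Rad (q : ℕ) (N : F →* F) (W : ValuationSubring F) : Prop where
  ord : ∀ y : F, W.valuation (N y) = W.valuation y ^ q
  res : ∀ y : F, W.valuation y = 1 → W.valuation (N y - y ^ q) < 1

/-- The local hypotheses at a closed point `R`: either only one component passes through `R`, or
all of them do and `R` is the only point above its images (the three norms preserve units). -/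
structure PtHypK {κ : Type*} (V : κ → ValuationSubring F) (Nα Nβ N₀ : F →* F) (R : Subring F) :
    Prop where
  through_or_away : ∀ c, Through R (V c) ∨ Away R (V c)
  princ : ∃ c, Through R (V c) ∧ Princ R (V c)
  cross : (∃ c, ∀ c', c' ≠ c → Away R (V c')) ∨
    ((∀ c, Through R (V c)) ∧ (∀ ε : F, RUnit R ε → RUnit R (Nα ε)) ∧
      (∀ ε : F, RUnit R ε → RUnit R (Nβ ε)) ∧ (∀ ε : F, RUnit R ε → RUnit R (N₀ ε)))

end Basic

section Model

variable {F : Type*} [Field F] {K₀ : Type*} [Field K₀] [Algebra K₀ F]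

/-- **The abstract model of `X₀(q^k N₀)`, `k ≥ 3`, over `A₀`.** -/
structure ModelK (A₀ : ValuationSubring K₀) (q : ℕ) (x : F) {κ : Type*}
    (V : κ → ValuationSubring F) (ϖ : κ → F) (E : ℕ) (Eα Eβ : Subfield F) (Nα Nβ N₀ : F →* F) :
    Prop where
  base : BaseHyp A₀ q
  transc : Transcendental K₀ x
  finite : FiniteDimensional K₀⟮x⟯ F
  const_mem : ∀ c, ∀ a ∈ A₀, algebraMap K₀ F a ∈ V c
  x_unit : ∀ c, (V c).valuation x = 1
  inj : Function.Injective V
  unif : ∀ c, IsUnif (V c) (ϖ c)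
  ram : ∀ c, ∃ e : ℕ, 1 ≤ e ∧ e ≤ E ∧ (V c).valuation (ϖ c) ^ e = (V c).valuation (q : F)
  /-- some component has multiplicity one -/
  unram : ∃ c, IsUnif (V c) (q : F)
  qep₁ : ∀ y : F, (q : F) * y ∈ chart A₀.toSubring x → (∀ c, y ∈ V c) → y ∈ chart A₀.toSubring x
  qep₂ : ∀ y : F, (q : F) * y ∈ chart A₀.toSubring x⁻¹ → (∀ c, y ∈ V c) →
    y ∈ chart A₀.toSubring x⁻¹
  constα : ∀ a : K₀, algebraMap K₀ F a ∈ Eα
  constβ : ∀ a : K₀, algebraMap K₀ F a ∈ Eβ
  normα_mem : ∀ y, Nα y ∈ Eα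
  normβ_mem : ∀ y, Nβ y ∈ Eβ
  normα_self : ∀ y ∈ Eα, Nα y = y ^ q
  normβ_self : ∀ y ∈ Eβ, Nβ y = y ^ q
  norm₀_const : ∀ a : K₀, N₀ (algebraMap K₀ F a) = algebraMap K₀ F a ^ (q * q)
  /-- every vertical valuation is radicial for `α` or for `β` -/
  rad : ∀ c, Rad q Nα (V c) ∨ Rad q Nβ (V c)
  /-- `N₀ = M_α ∘ N_α = M_β ∘ N_β` (transitivity of norms), in a form which only mentions `N₀` -/
  tieα : ∀ y, N₀ (Nα y) = N₀ y ^ q
  tieβ : ∀ y, N₀ (Nβ y) = N₀ y ^ q
  tieα_one : ∀ y, Nα y = 1 → N₀ y = 1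
  tieβ_one : ∀ y, Nβ y = 1 → N₀ y = 1
  /-- the restriction to `Eα` of some component is radicial for `Eα / E₀` -/
  tie_resα : ∃ c, ∀ y ∈ Eα, (V c).valuation y = 1 → (V c).valuation (N₀ y - y ^ (q * q)) < 1
  tie_resβ : ∃ c, ∀ y ∈ Eβ, (V c).valuation y = 1 → (V c).valuation (N₀ y - y ^ (q * q)) < 1
  pts₁ : ∀ (𝔫 : Ideal (chart A₀.toSubring x)) [𝔫.IsMaximal], (q : chart A₀.toSubring x) ∈ 𝔫 →
    PtHypK V Nα Nβ N₀ (locSub (chart A₀.toSubring x) 𝔫)
  pts₂ : ∀ (𝔫 : Ideal (chart A₀.toSubring x⁻¹)) [𝔫.IsMaximal],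
    (q : chart A₀.toSubring x⁻¹) ∈ 𝔫 → PtHypK V Nα Nβ N₀ (locSub (chart A₀.toSubring x⁻¹) 𝔫)

/-- A gluing datum of `u` at the point `R` (as `S36.BP.Datum`, for an arbitrary index type). -/
def DatumK {κ : Type*} (V : κ → ValuationSubring F) (R : Subring F) (n : ℕ) (u : F) (lam : κ → F)
    (g : F) (ζ : κ → K₀) : Prop :=
  RUnit R (g ^ n * u) ∧ ∀ c, ∃ r ∈ R, (V c).valuation (g / lam c - r) < 1 ∧
    r - algebraMap K₀ F (ζ c) ∈ rad R

/-- Trivial gluing datum at `R` (only the components through `R` matter). -/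
def TrivDatumK {κ : Type*} (V : κ → ValuationSubring F) (R : Subring F) (n : ℕ) (u : F)
    (lam : κ → F) : Prop :=
  ∃ g : F, RUnit R (g ^ n * u) ∧ ∀ c, Through R (V c) →
    ∃ r ∈ R, (V c).valuation (g / lam c - r) < 1 ∧ r - 1 ∈ rad R

/-- **The statement of the abstract core** (goal of block K). -/
def BpAbsK : Prop :=
  ∀ (F : Type) [Field F] (K₀ : Type) [Field K₀] [Algebra K₀ F] (A₀ : ValuationSubring K₀) (q : ℕ)
    (x : F) (κ : Type) [Finite κ] (V : κ → ValuationSubring F) (ϖ : κ → F) (E : ℕ)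
    (Eα Eβ : Subfield F) (Nα Nβ N₀ : F →* F),
    ModelK A₀ q x V ϖ E Eα Eβ Nα Nβ N₀ → ∀ n : ℕ, ¬ q ∣ n → ∀ u : F, u ≠ 0 →
      HorDiv K₀ n u → IsConstPow K₀ Eα n (Nα u) → IsConstPow K₀ Eβ n (Nβ u) →
      ∃ s : F, s ≠ 0 ∧ IsAlgebraic K₀ (s ^ n * u ^ q)

end Model

end Fermat.Agent.S45.K

end
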