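/-
S45, project CARAYOL-K, block K (owner helper65), leaf K3: injectivity of Frobenius modulo the
maximal ideal of a vertical valuation and modulo the radical of a point; elements of norm one on a
radicial component.
-/
import Mathlib
import Fermat.Agent.S18.Defs
import Fermat.Agent.S36.BP.Defs
import Fermat.Agent.S36.BP.Rad
import Fermat.Agent.S45.K.Defs

set_option autoImplicit false

noncomputable section

namespace Fermat.Agent.S45.K

open Fermat.Agent.S18 Fermat.Agent.S36.BP

variable {K₀ F : Type*} [Field K₀] [Field F] [Algebra K₀ F]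
variable {A₀ : ValuationSubring K₀} {q : ℕ}

/-- `(a - b) ^ q = a ^ q - b ^ q + q * r` with `r` in any subring containing `a`, `b`. -/
theorem exists_sub_pow_prime_eq (S : Subring F) (hq : q.Prime) {a b : F} (ha : a ∈ S)
    (hb : b ∈ S) : ∃ r ∈ S, (a - b) ^ q = a ^ q - b ^ q + (q : F) * r := by
  obtain ⟨r, hr⟩ := exists_add_pow_prime_eq hq (⟨a - b, S.sub_mem ha hb⟩ : S) ⟨b, hb⟩
  have h1 := congrArg (Subtype.val) hr
  simp only [Subring.coe_add, Subring.coe_mul, Subring.coe_pow, Subring.coe_natCast,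
    sub_add_cancel] at h1
  refine ⟨-((a - b) * b * (r : F)), S.neg_mem (S.mul_mem (S.mul_mem (S.sub_mem ha hb) hb) r.2), ?_⟩
  linear_combination -h1

theorem cg_of_pow_prime {W : ValuationSubring F} (hq : q.Prime) (hqW : W.valuation (q : F) < 1)
    {a b : F} (ha : W.valuation a ≤ 1) (hb : W.valuation b ≤ 1) (h : Cg W (a ^ q) (b ^ q)) :
    Cg W a b := by
  obtain ⟨r, hr, e⟩ := exists_sub_pow_prime_eq W.toSubring hq
    ((W.valuation_le_one_iff a).1 ha) ((W.valuation_le_one_iff b).1 hb)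
  have hr1 : W.valuation r ≤ 1 := (W.valuation_le_one_iff r).2 hr
  have h1 : W.valuation ((a - b) ^ q) < 1 := by
    rw [e]
    refine Valuation.map_add_lt _ h ?_
    rw [map_mul]
    exact mul_lt_one_of_lt_of_le hqW hr1
  rw [map_pow] at h1
  exact (pow_lt_one_iff_of_nonneg zero_le hq.ne_zero).1 h1

theorem cr_of_pow_prime {R : Subring F} (hR : IsPt A₀ R) (hq : q.Prime) (hqR : (q : F) ∈ rad R)
    {a b : F} (ha : a ∈ R) (hb : b ∈ R) (h : Cr R (a ^ q) (b ^ q)) : Cr R a b := by
  obtain ⟨r, hr, e⟩ := exists_sub_pow_prime_eq R hq ha hb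
  have h1 : (a - b) ^ q ∈ rad R := by
    rw [e]
    refine hR.add_rad _ h _ ?_
    rw [mul_comm]
    exact mul_mem_rad hr hqR
  exact ⟨R.sub_mem ha hb, fun hu => h1.2 (hu.pow q)⟩

theorem Rad.of_norm_eq_one {N : F →* F} {W : ValuationSubring F} (H : Rad q N W) (hq : q.Prime)
    (hqW : W.valuation (q : F) < 1) {y : F} (hy : N y = 1) :
    W.valuation y = 1 ∧ W.valuation (y - 1) < 1 := by
  have h1 : W.valuation y = 1 := by
    have := H.ord y
    rw [hy, map_one] at this
    exact (pow_eq_one_iff_of_nonneg zero_le hq.ne_zero).1 this.symm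
  refine ⟨h1, ?_⟩
  have h2 := H.res y h1
  rw [hy] at h2
  have h3 : Cg W (y ^ q) (1 ^ q) := by
    rw [one_pow]
    exact Cg.symm h2
  exact cg_of_pow_prime hq hqW h1.le (by rw [map_one]) h3

end Fermat.Agent.S45.K

end
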