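/-
S45, project CARAYOL-K, block K (owner helper65): the two charts of a `ModelK` play symmetric roles.
(Port of `S36/BP/Symm.lean`, `Model.inv`.)
-/
import Mathlib
import Fermat.Agent.S18.Defs
import Fermat.Agent.S18.Chart.Const
import Fermat.Agent.S36.BP.Defs
import Fermat.Agent.S45.K.Defs

set_option autoImplicit false

noncomputable section

namespace Fermat.Agent.S45.K

open Fermat.Agent.S18 Fermat.Agent.S36.BP IntermediateField

variable {K₀ F : Type*} [Field K₀] [Field F] [Algebra K₀ F]
variable {A₀ : ValuationSubring K₀} {q : ℕ} {x : F} {κ : Type*} {V : κ → ValuationSubring F}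
  {ϖ : κ → F} {E : ℕ} {Eα Eβ : Subfield F} {Nα Nβ N₀ : F →* F}

/-- the two charts play symmetric roles. -/
theorem ModelK.inv (M : ModelK A₀ q x V ϖ E Eα Eβ Nα Nβ N₀) :
    ModelK A₀ q x⁻¹ V ϖ E Eα Eβ Nα Nβ N₀ where
  base := M.base
  transc := transcendental_inv M.transc
  finite := by
    rw [adjoin_simple_inv_eq]
    exact M.finite
  const_mem := M.const_mem
  x_unit c := by rw [map_inv₀, M.x_unit, inv_one]
  inj := M.inj
  unif := M.unif
  ram := M.ram
  unram := M.unram
  qep₁ := M.qep₂
  qep₂ := by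
    rw [inv_inv]
    exact M.qep₁
  constα := M.constα
  constβ := M.constβ
  normα_mem := M.normα_mem
  normβ_mem := M.normβ_mem
  normα_self := M.normα_self
  normβ_self := M.normβ_self
  norm₀_const := M.norm₀_const
  rad := M.rad
  tieα := M.tieα
  tieβ := M.tieβ
  tieα_one := M.tieα_one
  tieβ_one := M.tieβ_one
  tie_resα := M.tie_resα
  tie_resβ := M.tie_resβ
  pts₁ := M.pts₂
  pts₂ := by
    rw [inv_inv]
    exact M.pts₁

theorem ModelK.nonempty (M : ModelK A₀ q x V ϖ E Eα Eβ Nα Nβ N₀) : Nonempty κ :=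
  ⟨M.unram.choose⟩

end Fermat.Agent.S45.K

end
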