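/-
S45, project CARAYOL-K, block K (owner helper65), leaf K5: the gluing datum at a crossing point is
trivial.

`u` is a vertical unit, `la ^ n * u` has `α`-norm one, `lb ^ n * u` has `β`-norm one, and
`lam c = la` on the `α`-radicial components, `lam c = lb * η` on the others, where `η` is the tie
constant `N₀ (la / lb) = η ^ (q * q)`.  If `g ^ n * u` is a unit of the crossing point `R`, then
for every component the value at `R` of `g / lam c` has `q²`-th power `N₀ (g / la) (R)`.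
-/
import Mathlib
import Fermat.Agent.S18.Defs
import Fermat.Agent.S36.BP.Defs
import Fermat.Agent.S36.BP.Base
import Fermat.Agent.S36.BP.Rad
import Fermat.Agent.S36.BP.Datum
import Fermat.Agent.S45.K.Defs
import Fermat.Agent.S45.K.Symm
import Fermat.Agent.S45.K.Frob

set_option autoImplicit false

noncomputable section

namespace Fermat.Agent.S45.K

open Fermat.Agent.S18 Fermat.Agent.S36.BP IntermediateField

variable {K₀ F : Type*} [Field K₀] [Field F] [Algebra K₀ F]
variable {A₀ : ValuationSubring K₀} {q : ℕ} {x : F} {κ : Type*} {V : κ → ValuationSubring F}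
  {ϖ : κ → F} {E : ℕ} {Eα Eβ : Subfield F} {Nα Nβ N₀ : F →* F}

/-- One family of components: the value at `R` of `g / l` on a radicial component `W` has
`q²`-th power the value of `N₀ (g / l)`. -/
theorem cross_half {R : Subring F} (hR : IsPt A₀ R) (hq : q.Prime) (hqR : (q : F) ∈ rad R)
    {N N₀ : F →* F} {E' : Subfield F} (hmem : ∀ y, N y ∈ E')
    (htie : ∀ y, N₀ (N y) = N₀ y ^ q) (hone : ∀ y, N y = 1 → N₀ y = 1)
    {W₁ : ValuationSubring F} (hW₁ : ∀ r ∈ R, r ∈ W₁)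
    (hres : ∀ y ∈ E', W₁.valuation y = 1 → W₁.valuation (N₀ y - y ^ (q * q)) < 1)
    (hU : ∀ ε, RUnit R ε → RUnit R (N ε)) (hU₀ : ∀ ε, RUnit R ε → RUnit R (N₀ ε))
    {n : ℕ} (hn0 : n ≠ 0) {u l g : F} (hl0 : l ≠ 0) (hN : N (l ^ n * u) = 1)
    (hg : RUnit R (g ^ n * u))
    {W : ValuationSubring F} (hW : ∀ r ∈ R, r ∈ W) (hrad : Rad q N W)
    (hWl : W.valuation (g / l) = 1) {r : F} (hr : r ∈ R) (hc : Cg W (g / l) r) :
    Cr R (N₀ (g / l)) (r ^ (q * q)) := by
  have hid : (g / l) ^ n * (l ^ n * u) = g ^ n * u := by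
    rw [div_pow]
    field_simp
  set Y : F := g / l with hY
  have hGn : N Y ^ n = N (g ^ n * u) := by rw [← hid, map_mul, hN, mul_one, map_pow]
  have hG : RUnit R (N Y) := hR.runit_of_pow hn0 (hGn ▸ hU _ hg)
  have hZn : N₀ Y ^ n = N₀ (g ^ n * u) := by rw [← hid, map_mul, hone _ hN, mul_one, map_pow]
  have hZ : RUnit R (N₀ Y) := hR.runit_of_pow hn0 (hZn ▸ hU₀ _ hg)
  -- `N Y ≡ r ^ q`
  have c1 : Cg W (N Y) (Y ^ q) := hrad.res Y hWl
  have c2 : Cg W (Y ^ q) (r ^ q) := hc.pow (mem_iff_val_le.1 (hW r hr)) q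
  have r1 : Cr R (N Y) (r ^ q) := (c1.trans c2).cr hW hG.mem (R.pow_mem hr q)
  -- `N₀ Y ^ q ≡ N Y ^ (q * q)`
  have c3 : Cg W₁ (N₀ (N Y)) (N Y ^ (q * q)) := hres _ (hmem Y) (hG.val_eq_one hW₁)
  rw [htie] at c3
  have r2 : Cr R (N₀ Y ^ q) ((N Y ^ q) ^ q) := by
    rw [← pow_mul]
    exact c3.cr hW₁ (R.pow_mem hZ.mem q) (R.pow_mem hG.mem _)
  have r3 : Cr R (N₀ Y) (N Y ^ q) := cr_of_pow_prime hR hq hqR hZ.mem (R.pow_mem hG.mem q) r2
  have r4 : Cr R (N Y ^ q) ((r ^ q) ^ q) := hR.cr_pow r1 (R.pow_mem hr q) q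
  rw [← pow_mul] at r4
  exact hR.cr_trans r3 r4

/-- **The gluing datum at a crossing point is trivial.** -/
theorem ModelK.trivDatumK_of_cross (M : ModelK A₀ q x V ϖ E Eα Eβ Nα Nβ N₀) {n : ℕ}
    (hn : ¬ q ∣ n) {u la lb : F} {η : K₀} (hla : la ≠ 0) (hlb : lb ≠ 0) (hη : η ^ n = 1)
    (hNa : Nα (la ^ n * u) = 1) (hNb : Nβ (lb ^ n * u) = 1)
    (hH : N₀ (la / lb) = algebraMap K₀ F η ^ (q * q))
    {lam : κ → F} (hlam : ∀ c, (V c).valuation (lam c) = 1)
    (hlu : ∀ c, (V c).valuation (lam c ^ n * u - 1) < 1)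
    (hfam : ∀ c, (Rad q Nα (V c) ∧ lam c = la) ∨
      (Rad q Nβ (V c) ∧ lam c = lb * algebraMap K₀ F η))
    {R : Subring F} (hR : IsPt A₀ R) (hT : ∀ c, Through R (V c))
    (hUα : ∀ ε : F, RUnit R ε → RUnit R (Nα ε)) (hUβ : ∀ ε : F, RUnit R ε → RUnit R (Nβ ε))
    (hU₀ : ∀ ε : F, RUnit R ε → RUnit R (N₀ ε)) {g : F} (hg : RUnit R (g ^ n * u)) :
    TrivDatumK V R n u lam := by
  have hn0 : n ≠ 0 := fun h => hn (h ▸ dvd_zero q)
  have hq := M.base.prime
  have hqR : (q : F) ∈ S36.BP.rad R := by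
    have := hR.const_rad (q : K₀) (valuation_lt_one_of_isUnif M.base.unif)
    rwa [map_natCast] at this
  -- the constant `η`
  have hηA : A₀.valuation η = 1 := valuation_eq_one_of_pow_eq_one A₀ hn0 hη
  have hηU : RUnit R (algebraMap K₀ F η) := hR.runit_const hηA
  -- `u`, `g` are vertical units
  have hu1 : ∀ c, (V c).valuation u = 1 := by
    intro c
    have h1 : (V c).valuation (lam c ^ n * u) = 1 := Cg.val_eq_one (hlu c) (map_one _)
    rwa [map_mul, map_pow, hlam c, one_pow, one_mul] at h1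
  have hg1 : ∀ c, (V c).valuation g = 1 := by
    intro c
    have h1 := hg.val_eq_one (hT c).le
    rw [map_mul, hu1 c, mul_one] at h1
    exact val_eq_one_of_pow hn0 h1
  -- representatives
  have hrep : ∀ c, ∃ r ∈ R, (V c).valuation (g / lam c - r) < 1 ∧ r ^ n - g ^ n * u ∈ S36.BP.rad R :=
    fun c => DatumAux.exists_rep hR (hT c) hn0 (hlam c) (hlu c) hg
  choose r hrR hrc hrn using hrep
  have hrU : ∀ c, RUnit R (r c) := fun c =>
    RUnit.of_pow hn0 (hrR c) (hR.runit_of_cr (hrn c) hg)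
  obtain ⟨c₁, hc₁⟩ := M.tie_resα
  obtain ⟨c₂, hc₂⟩ := M.tie_resβ
  -- the key congruence
  have key : ∀ c, Cr R (N₀ (g / la)) (r c ^ (q * q)) := by
    intro c
    rcases hfam c with ⟨hrad, e⟩ | ⟨hrad, e⟩
    · have hv : (V c).valuation (g / la) = 1 := by
        rw [← e]; exact val_div_eq_one (hg1 c) (hlam c)
      have hc : Cg (V c) (g / la) (r c) := by
        rw [← e]; exact hrc c
      exact cross_half hR hq hqR M.normα_mem M.tieα M.tieα_one (hT c₁).le hc₁ hUα hU₀ hn0 hla hNa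
        hg (hT c).le hrad hv (hrR c) hc
    · have hη0 := hηU.1
      have hηV : (V c).valuation (algebraMap K₀ F η) = 1 := hηU.val_eq_one (hT c).le
      have e2 : g / lb = g / lam c * algebraMap K₀ F η := by
        rw [e]; field_simp
      have hv : (V c).valuation (g / lb) = 1 := by
        rw [e2]; exact val_mul_eq_one (val_div_eq_one (hg1 c) (hlam c)) hηV
      have hc : Cg (V c) (g / lb) (r c * algebraMap K₀ F η) := by
        rw [e2]; exact Cg.mul_right (hrc c) hηV.le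
      have h1 := cross_half hR hq hqR M.normβ_mem M.tieβ M.tieβ_one (hT c₂).le hc₂ hUβ hU₀ hn0 hlb
        hNb hg (hT c).le hrad hv (R.mul_mem (hrR c) hηU.mem) hc
      have e3 : N₀ (g / lb) = N₀ (g / la) * algebraMap K₀ F η ^ (q * q) := by
        rw [← hH, ← map_mul]
        congr 1
        field_simp
      rw [e3, mul_pow] at h1
      have h2 := h1.mul_right (R.pow_mem hηU.inv_mem (q * q))
      have hp : algebraMap K₀ F η ^ (q * q) * (algebraMap K₀ F η)⁻¹ ^ (q * q) = 1 := by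
        rw [← mul_pow, mul_inv_cancel₀ hη0, one_pow]
      rwa [mul_assoc, mul_assoc, hp, mul_one, mul_one] at h2
  -- all the values agree
  have hsame : ∀ c c', Cr R (r c) (r c') := by
    intro c c'
    have h1 : Cr R ((r c ^ q) ^ q) ((r c' ^ q) ^ q) := by
      rw [← pow_mul, ← pow_mul]
      exact hR.cr_trans (key c).symm (key c')
    exact cr_of_pow_prime hR hq hqR (hrR c) (hrR c')
      (cr_of_pow_prime hR hq hqR (R.pow_mem (hrR c) q) (R.pow_mem (hrR c') q) h1)
  obtain ⟨c₀⟩ := M.nonempty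
  refine ⟨g / r c₀, ?_, fun c _ => ⟨r c / r c₀, ((hrU c).div (hrU c₀)).mem, ?_, ?_⟩⟩
  · have e : (g / r c₀) ^ n * u = g ^ n * u / r c₀ ^ n := by
      rw [div_pow]; ring
    rw [e]
    exact hg.div ((hrU c₀).pow n)
  · have e : g / r c₀ / lam c - r c / r c₀ = (g / lam c - r c) / r c₀ := by
      have := (hrU c₀).1
      field_simp
    rw [e, map_div₀, (hrU c₀).val_eq_one (hT c).le, div_one]
    exact hrc c
  · have e : r c / r c₀ - 1 = (r c₀)⁻¹ * (r c - r c₀) := by
      have := (hrU c₀).1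
      field_simp
    rw [e]
    exact mul_mem_rad (hrU c₀).inv_mem (hsame c c₀)

end Fermat.Agent.S45.K

end
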