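/-
S45, project CARAYOL-K, block K (architect helper65), leaf K4 (helper205): the normal form of `u`.
* `ModelK.exists_same_const`  : the two constants of `Nα u`, `Nβ u` can be taken equal;
* `ModelK.exists_normal_form` : after replacing `u` by `u ^ q * c * h ^ n`, it has `n`-th roots of
  norm one on both sides, which are vertical units on the corresponding radicial components;
* `ModelK.exists_eta`         : the tie constant.
-/
import Mathlib
import Fermat.Agent.S18.Defs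
import Fermat.Agent.S36.BP.Defs
import Fermat.Agent.S36.BP.Base
import Fermat.Agent.S36.BP.Residues
import Fermat.Agent.S36.BP.Approx
import Fermat.Agent.S45.K.Defs

set_option autoImplicit false

noncomputable section

namespace Fermat.Agent.S45.K

open Fermat.Agent.S18 Fermat.Agent.S36.BP IntermediateField

variable {K₀ F : Type*} [Field K₀] [Field F] [Algebra K₀ F]
variable {A₀ : ValuationSubring K₀} {q : ℕ} {x : F} {κ : Type*} {V : κ → ValuationSubring F}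
  {ϖ : κ → F} {E : ℕ} {Eα Eβ : Subfield F} {Nα Nβ N₀ : F →* F}

/-- a monoid homomorphism of a field does not kill nonzero elements. -/
theorem norm_map_ne_zero (N : F →* F) {y : F} (hy : y ≠ 0) : N y ≠ 0 := by
  intro h
  have h1 : N y * N y⁻¹ = 1 := by rw [← map_mul, mul_inv_cancel₀ hy, map_one]
  rw [h, zero_mul] at h1
  exact zero_ne_one h1

/-- a monoid homomorphism of a field commutes with inverses of nonzero elements. -/
theorem norm_map_inv (N : F →* F) {y : F} (hy : y ≠ 0) : N y⁻¹ = (N y)⁻¹ := by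
  have h1 : N y * N y⁻¹ = 1 := by rw [← map_mul, mul_inv_cancel₀ hy, map_one]
  exact eq_inv_of_mul_eq_one_right h1

/-- a monoid homomorphism of a field commutes with quotients by nonzero elements. -/
theorem norm_map_div (N : F →* F) (y : F) {z : F} (hz : z ≠ 0) : N (y / z) = N y / N z := by
  rw [div_eq_mul_inv, map_mul, norm_map_inv N hz, div_eq_mul_inv]

/-- a constant whose `q * q`-th power is an `n`-th power in `F` is an `n`-th power in `K₀`. -/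
theorem ModelK.exists_const_root (M : ModelK A₀ q x V ϖ E Eα Eβ Nα Nβ N₀) {n : ℕ}
    (hn : ¬ q ∣ n) {r : K₀} (hr : r ≠ 0) {T : F} (hT : T ≠ 0)
    (h : algebraMap K₀ F r ^ (q * q) = T ^ n) : ∃ d : K₀, d ≠ 0 ∧ r = d ^ n := by
  have hb := M.base
  obtain ⟨c₀, hU⟩ := M.unram
  obtain ⟨s, e, he, hre⟩ := hb.exists_zpow_mul hr
  obtain ⟨j, hj⟩ := res_exists_valuation_eq_zpow hU hT
  obtain ⟨b, hbe⟩ := hb.root n hn e he
  have hq0 : (q : F) ≠ 0 := by
    rintro h0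
    exact hU.inv_notMem (by rw [h0, inv_zero]; exact (V c₀).zero_mem)
  have hvq0 : (V c₀).valuation (q : F) ≠ 0 := (Valuation.ne_zero_iff _).mpr hq0
  have hrF : algebraMap K₀ F r = (q : F) ^ s * algebraMap K₀ F e := by
    rw [hre, map_mul, map_zpow₀, map_natCast]
  have h1 : (V c₀).valuation (q : F) ^ (s * ((q * q : ℕ) : ℤ))
      = (V c₀).valuation (q : F) ^ (j * (n : ℤ)) := by
    have h2 := congrArg (V c₀).valuation h
    rw [hrF, map_pow, map_pow, map_mul, map_zpow₀,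
      res_valuation_algebraMap_eq_one (M.const_mem c₀) he, mul_one, hj, ← zpow_natCast,
      ← zpow_mul, ← zpow_natCast, ← zpow_mul] at h2
    exact h2
  have h2 : s * ((q * q : ℕ) : ℤ) - j * (n : ℤ) = 0 := by
    apply res_eq_zero_of_zpow_eq_one hU
    rw [zpow_sub₀ hvq0, h1, div_self (zpow_ne_zero _ hvq0)]
  have hcop : IsCoprime (n : ℤ) ((q * q : ℕ) : ℤ) := by
    have h3 : Nat.Coprime q n := (Nat.Prime.coprime_iff_not_dvd hb.prime).mpr hn
    exact Nat.isCoprime_iff_coprime.mpr (Nat.Coprime.mul_right h3.symm h3.symm)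
  have hdvd : (n : ℤ) ∣ s := by
    refine hcop.dvd_of_dvd_mul_right ?_
    exact ⟨j, by linarith⟩
  obtain ⟨t, rfl⟩ := hdvd
  have hb0 : b ≠ 0 := by
    rintro rfl
    have hn0 : n ≠ 0 := fun h0 => hn (h0 ▸ dvd_zero q)
    rw [zero_pow hn0] at hbe
    rw [← hbe, map_zero] at he
    exact zero_ne_one he
  refine ⟨(q : K₀) ^ t * b, mul_ne_zero (zpow_ne_zero _ hb.q_ne_zero) hb0, ?_⟩
  rw [hre, mul_pow, hbe, ← zpow_natCast, ← zpow_mul, mul_comm t]

/-- the two constants can be taken equal. -/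
theorem ModelK.exists_same_const (M : ModelK A₀ q x V ϖ E Eα Eβ Nα Nβ N₀) {n : ℕ}
    (hn : ¬ q ∣ n) {u : F} (hu : u ≠ 0)
    (hα : IsConstPow K₀ Eα n (Nα u)) (hβ : IsConstPow K₀ Eβ n (Nβ u)) :
    ∃ (c : K₀) (wa wb : F), c ≠ 0 ∧ wa ≠ 0 ∧ wb ≠ 0 ∧ wa ∈ Eα ∧ wb ∈ Eβ ∧
      Nα u = algebraMap K₀ F c * wa ^ n ∧ Nβ u = algebraMap K₀ F c * wb ^ n := by
  obtain ⟨ca, wa, hca, hwa, hwaE, hNa⟩ := hα
  obtain ⟨cb, wb, hcb, hwb, hwbE, hNb⟩ := hβ
  have hcaF : algebraMap K₀ F ca ≠ 0 := by rwa [Ne, map_eq_zero]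
  have hcbF : algebraMap K₀ F cb ≠ 0 := by rwa [Ne, map_eq_zero]
  have hA : N₀ wa ≠ 0 := norm_map_ne_zero N₀ hwa
  have hB : N₀ wb ≠ 0 := norm_map_ne_zero N₀ hwb
  have h1 : algebraMap K₀ F ca ^ (q * q) * N₀ wa ^ n
      = algebraMap K₀ F cb ^ (q * q) * N₀ wb ^ n := by
    have h2 : N₀ (Nα u) = N₀ (Nβ u) := by rw [M.tieα, M.tieβ]
    rw [hNa, hNb, map_mul, map_mul, map_pow, map_pow, M.norm₀_const, M.norm₀_const] at h2
    exact h2
  have h3 : algebraMap K₀ F (ca / cb) ^ (q * q) = (N₀ wb / N₀ wa) ^ n := by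
    rw [map_div₀, div_pow, div_pow, div_eq_div_iff (pow_ne_zero _ hcbF) (pow_ne_zero _ hA), h1,
      mul_comm]
  obtain ⟨d, hd0, hd⟩ := M.exists_const_root hn (div_ne_zero hca hcb) (div_ne_zero hB hA) h3
  have hdF : algebraMap K₀ F d ≠ 0 := by rwa [Ne, map_eq_zero]
  refine ⟨ca, wa, wb / algebraMap K₀ F d, hca, hwa, div_ne_zero hwb hdF, hwaE,
    Eβ.div_mem hwbE (M.constβ d), hNa, ?_⟩
  have h4 : ca = cb * d ^ n := by
    rw [← hd, mul_div_cancel₀ _ hcb]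
  rw [hNb, h4, map_mul, map_pow, div_pow]
  field_simp

theorem ModelK.exists_normal_form [Finite κ] (M : ModelK A₀ q x V ϖ E Eα Eβ Nα Nβ N₀) {n : ℕ}
    (hn : ¬ q ∣ n) {u : F} (hu : u ≠ 0)
    (hα : IsConstPow K₀ Eα n (Nα u)) (hβ : IsConstPow K₀ Eβ n (Nβ u)) :
    ∃ (c : K₀) (h la lb : F), c ≠ 0 ∧ h ≠ 0 ∧ la ≠ 0 ∧ lb ≠ 0 ∧
      Nα (la ^ n * (u ^ q * algebraMap K₀ F c * h ^ n)) = 1 ∧
      Nβ (lb ^ n * (u ^ q * algebraMap K₀ F c * h ^ n)) = 1 ∧
      (∀ k, Rad q Nα (V k) → (V k).valuation la = 1) ∧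
      (∀ k, ¬ Rad q Nα (V k) → (V k).valuation lb = 1) := by
  classical
  obtain ⟨c, wa, wb, hc, hwa, hwb, hwaE, hwbE, hNa, hNb⟩ := M.exists_same_const hn hu hα hβ
  have hcF : algebraMap K₀ F c ≠ 0 := by rwa [Ne, map_eq_zero]
  choose ja hja using fun k => res_exists_valuation_eq_zpow (M.unif k) (inv_ne_zero hwa)
  choose jb hjb using fun k => res_exists_valuation_eq_zpow (M.unif k) (inv_ne_zero hwb)
  obtain ⟨h, hh0, hh⟩ := exists_prescribed_orders V ϖ M.unif M.inj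
    (fun k => if Rad q Nα (V k) then ja k else jb k)
  have key : ∀ (N : F →* F) (E' : Subfield F) (w : F), w ≠ 0 → w ∈ E' →
      (∀ a : K₀, algebraMap K₀ F a ∈ E') → (∀ y ∈ E', N y = y ^ q) →
      N u = algebraMap K₀ F c * w ^ n →
      N (((w * h)⁻¹) ^ n * (u ^ q * algebraMap K₀ F c⁻¹ * h ^ n)) = 1 := by
    intro N E' w hw hwE hconst hself hNu
    have e1 : ((w * h)⁻¹) ^ n * (u ^ q * algebraMap K₀ F c⁻¹ * h ^ n)
        = u ^ q * (algebraMap K₀ F c⁻¹ * (w⁻¹) ^ n) := by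
      have e3 : ((w * h)⁻¹) ^ n * h ^ n = (w⁻¹) ^ n := by
        rw [← mul_pow, mul_inv, mul_assoc, inv_mul_cancel₀ hh0, mul_one]
      rw [← e3]
      ring
    rw [e1, map_mul, map_pow, hNu,
      hself _ (E'.mul_mem (hconst _) (E'.pow_mem (E'.inv_mem hwE) n)), ← mul_pow, map_inv₀]
    have e2 : algebraMap K₀ F c * w ^ n * ((algebraMap K₀ F c)⁻¹ * w⁻¹ ^ n) = 1 := by
      rw [inv_pow, mul_mul_mul_comm, mul_inv_cancel₀ hcF, mul_inv_cancel₀ (pow_ne_zero _ hw),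
        one_mul]
    rw [e2, one_pow]
  refine ⟨c⁻¹, h, (wa * h)⁻¹, (wb * h)⁻¹, inv_ne_zero hc, hh0,
    inv_ne_zero (mul_ne_zero hwa hh0), inv_ne_zero (mul_ne_zero hwb hh0),
    key Nα Eα wa hwa hwaE M.constα M.normα_self hNa,
    key Nβ Eβ wb hwb hwbE M.constβ M.normβ_self hNb, ?_, ?_⟩
  · intro k hk
    have h1 := hh k
    simp only [if_pos hk] at h1
    rw [← hja k, map_inv₀] at h1
    have hv0 : (V k).valuation wa ≠ 0 := (Valuation.ne_zero_iff _).mpr hwa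
    rw [map_inv₀, map_mul, h1, mul_inv_cancel₀ hv0, inv_one]
  · intro k hk
    have h1 := hh k
    simp only [if_neg hk] at h1
    rw [← hjb k, map_inv₀] at h1
    have hv0 : (V k).valuation wb ≠ 0 := (Valuation.ne_zero_iff _).mpr hwb
    rw [map_inv₀, map_mul, h1, mul_inv_cancel₀ hv0, inv_one]

/-- the tie constant. -/
theorem ModelK.exists_eta (M : ModelK A₀ q x V ϖ E Eα Eβ Nα Nβ N₀) {n : ℕ}
    (hn : ¬ q ∣ n) {u la lb : F} (hla : la ≠ 0) (hlb : lb ≠ 0)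
    (hNa : Nα (la ^ n * u) = 1) (hNb : Nβ (lb ^ n * u) = 1) :
    ∃ η : K₀, η ^ n = 1 ∧ N₀ (la / lb) = algebraMap K₀ F η ^ (q * q) := by
  have hb := M.base
  have hn0 : n ≠ 0 := fun h0 => hn (h0 ▸ dvd_zero q)
  have h1 : N₀ la ^ n * N₀ u = 1 := by
    have := M.tieα_one _ hNa
    rwa [map_mul, map_pow] at this
  have h2 : N₀ lb ^ n * N₀ u = 1 := by
    have := M.tieβ_one _ hNb
    rwa [map_mul, map_pow] at this
  have hu0 : N₀ u ≠ 0 := by
    intro h0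
    rw [h0, mul_zero] at h1
    exact zero_ne_one h1
  have hB : N₀ lb ≠ 0 := norm_map_ne_zero N₀ hlb
  have h3 : N₀ la ^ n = N₀ lb ^ n := mul_right_cancel₀ hu0 (h1.trans h2.symm)
  have hH : N₀ (la / lb) ^ n = 1 := by
    rw [norm_map_div N₀ la hlb, div_pow, h3, div_self (pow_ne_zero _ hB)]
  obtain ⟨ζ, hζ⟩ := hb.prim n hn
  have hζF : IsPrimitiveRoot (algebraMap K₀ F ζ) n :=
    hζ.map_of_injective (algebraMap K₀ F).injective
  have : NeZero n := ⟨hn0⟩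
  obtain ⟨i, -, hi⟩ := hζF.eq_pow_of_pow_eq_one hH
  have hζ0 : ζ ≠ 0 := hζ.ne_zero hn0
  have hcop : IsCoprime ((q * q : ℕ) : ℤ) (n : ℤ) := by
    have h3 : Nat.Coprime q n := (Nat.Prime.coprime_iff_not_dvd hb.prime).mpr hn
    exact Nat.isCoprime_iff_coprime.mpr (Nat.Coprime.mul_left h3 h3)
  obtain ⟨a, b, hab⟩ := hcop
  have hη₀ : (ζ ^ i) ^ n = 1 := by rw [← pow_mul, mul_comm, pow_mul, hζ.pow_eq_one, one_pow]
  have hi0 : ζ ^ i ≠ 0 := pow_ne_zero _ hζ0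
  refine ⟨(ζ ^ i) ^ a, ?_, ?_⟩
  · rw [← zpow_natCast, ← zpow_mul, mul_comm, zpow_mul, zpow_natCast, hη₀, one_zpow]
  · rw [← hi, ← map_pow, ← map_pow]
    congr 1
    have h5 : ((ζ ^ i) ^ a) ^ (q * q) * ((ζ ^ i) ^ n) ^ b = ζ ^ i := by
      rw [← zpow_natCast ((ζ ^ i) ^ a), ← zpow_mul, ← zpow_natCast (ζ ^ i) n, ← zpow_mul,
        ← zpow_add₀ hi0, mul_comm (n : ℤ), hab, zpow_one]
    rw [hη₀, one_zpow, mul_one] at h5
    exact h5.symm

end Fermat.Agent.S45.K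

end
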