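/-
S45, project CARAYOL-K, block K (owner helper65), leaf K6: **the abstract core** `bpAbsK : BpAbsK`,
assembled from `Port/Basic` (K1), `Port/Inj` (K2), `Frob` (K3), `Norm` (K4), `Cross` (K5).

Proof (report #1687, section 3).  `N_α u = c w_α ^ n`, `N_β u = c w_β ^ n` with the same constant.
Then `u ^ q / (c w_α ^ n)` has `α`-norm one, so it is `≡ 1` on every `α`-radicial component; same
for `β`.  So orders and residues are free; the gluing datum at the crossing points is trivial by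
`Cross`, and one concludes by the multi-component injectivity theorem `BAD.Inj.inj_multi`.
-/
import Mathlib
import Fermat.Agent.S18.Defs
import Fermat.Agent.S18.Chart.Const
import Fermat.Agent.S36.BP.Defs
import Fermat.Agent.S36.BP.Base
import Fermat.Agent.S36.BP.Rad
import Fermat.Agent.S36.BP.Symm
import Fermat.Agent.S45.K.Defs
import Fermat.Agent.S45.K.Symm
import Fermat.Agent.S45.K.Frob
import Fermat.Agent.S45.K.Norm
import Fermat.Agent.S45.K.Cross
import Fermat.Agent.S45.K.Port.Basic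
import Fermat.Agent.S45.K.Port.Inj

set_option autoImplicit false

noncomputable section

namespace Fermat.Agent.S45.K

open Fermat.Agent.S18 Fermat.Agent.S36.BP IntermediateField

variable {K₀ F : Type*} [Field K₀] [Field F] [Algebra K₀ F]
variable {A₀ : ValuationSubring K₀} {q : ℕ} {x : F} {κ : Type*} {V : κ → ValuationSubring F}
  {ϖ : κ → F} {E : ℕ} {Eα Eβ : Subfield F} {Nα Nβ N₀ : F →* F}

/-- the local step, at one closed point of one chart. -/
theorem ModelK.triv_point [Finite κ] (M : ModelK A₀ q x V ϖ E Eα Eβ Nα Nβ N₀) {n : ℕ}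
    (hn : ¬ q ∣ n) {u la lb : F} {η : K₀} (hla : la ≠ 0) (hlb : lb ≠ 0) (hη : η ^ n = 1)
    (hNa : Nα (la ^ n * u) = 1) (hNb : Nβ (lb ^ n * u) = 1)
    (hH : N₀ (la / lb) = algebraMap K₀ F η ^ (q * q))
    (hu : ∀ c, (V c).valuation u = 1) (hd : HorDiv K₀ n u)
    {lam : κ → F} (hlam : ∀ c, (V c).valuation (lam c) = 1)
    (hlu : ∀ c, (V c).valuation (lam c ^ n * u - 1) < 1)
    (hfam : ∀ c, (Rad q Nα (V c) ∧ lam c = la) ∨
      (Rad q Nβ (V c) ∧ lam c = lb * algebraMap K₀ F η))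
    (𝔫 : Ideal (chart A₀.toSubring x)) [𝔫.IsMaximal] (h𝔫 : (q : chart A₀.toSubring x) ∈ 𝔫) :
    TrivDatumK V (locSub (chart A₀.toSubring x) 𝔫) n u lam := by
  have hn0 : n ≠ 0 := fun h => hn (h ▸ dvd_zero q)
  have hpt := M.isPt 𝔫 h𝔫
  have hP := M.pts₁ 𝔫 h𝔫
  obtain ⟨g₀, hg₀⟩ := M.exists_local_root 𝔫 h𝔫 hu hd
  rcases hP.cross with ⟨c₀, hA⟩ | ⟨hT, hUα, hUβ, hU₀⟩
  · exact trivDatumK_of_single hpt hA hn0 hlam hlu hg₀
  · exact M.trivDatumK_of_cross hn hla hlb hη hNa hNb hH hlam hlu hfam hpt hT hUα hUβ hU₀ hg₀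

theorem ModelK.val_q_lt_one (M : ModelK A₀ q x V ϖ E Eα Eβ Nα Nβ N₀) (c : κ) :
    (V c).valuation (q : F) < 1 := by
  obtain ⟨e, he1, -, he⟩ := M.ram c
  rw [← he]
  exact pow_lt_one₀ zero_le (valuation_lt_one_of_isUnif (M.unif c)) (by omega)

/-- **The abstract core.** -/
theorem ModelK.bp_abs [Finite κ] (M : ModelK A₀ q x V ϖ E Eα Eβ Nα Nβ N₀) {n : ℕ}
    (hn : ¬ q ∣ n) {u : F} (hu : u ≠ 0) (hd : HorDiv K₀ n u)
    (hα : IsConstPow K₀ Eα n (Nα u)) (hβ : IsConstPow K₀ Eβ n (Nβ u)) :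
    ∃ s : F, s ≠ 0 ∧ IsAlgebraic K₀ (s ^ n * u ^ q) := by
  classical
  have hn0 : n ≠ 0 := fun h => hn (h ▸ dvd_zero q)
  have hq := M.base.prime
  obtain ⟨c, h, la, lb, hc0, hh0, hla, hlb, hNa, hNb, hva, hvb⟩ := M.exists_normal_form hn hu hα hβ
  set u₂ : F := u ^ q * algebraMap K₀ F c * h ^ n with hu₂
  have hd₂ : HorDiv K₀ n u₂ := ((hd.pow q).mul_const hc0).mul_pow hh0
  obtain ⟨η, hη, hH⟩ := M.exists_eta hn hla hlb hNa hNb
  have hηF : algebraMap K₀ F η ^ n = 1 := by rw [← map_pow, hη, map_one]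
  set lam : κ → F := fun k => if Rad q Nα (V k) then la else lb * algebraMap K₀ F η with hlamdef
  have hfam : ∀ k, (Rad q Nα (V k) ∧ lam k = la) ∨
      (Rad q Nβ (V k) ∧ lam k = lb * algebraMap K₀ F η) := by
    intro k
    by_cases hk : Rad q Nα (V k)
    · exact Or.inl ⟨hk, by simp only [hlamdef, if_pos hk]⟩
    · exact Or.inr ⟨(M.rad k).resolve_left hk, by simp only [hlamdef, if_neg hk]⟩
  have hlam : ∀ k, (V k).valuation (lam k) = 1 := by
    intro k
    by_cases hk : Rad q Nα (V k)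
    · simp only [hlamdef, if_pos hk]
      exact hva k hk
    · simp only [hlamdef, if_neg hk]
      rw [map_mul, hvb k hk, one_mul]
      exact valuation_eq_one_of_pow_eq_one _ hn0 hηF
  have hlu : ∀ k, (V k).valuation (lam k ^ n * u₂ - 1) < 1 := by
    intro k
    rcases hfam k with ⟨hk, e⟩ | ⟨hk, e⟩
    · rw [e]
      exact (hk.of_norm_eq_one hq (M.val_q_lt_one k) hNa).2
    · rw [e, mul_pow, hηF, mul_one]
      exact (hk.of_norm_eq_one hq (M.val_q_lt_one k) hNb).2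
  have hu₂1 : ∀ k, (V k).valuation u₂ = 1 := by
    intro k
    have h1 : (V k).valuation (lam k ^ n * u₂) = 1 := by
      have := Valuation.map_add_eq_of_lt_right (V k).valuation
        (x := lam k ^ n * u₂ - 1) (y := 1) (by rw [map_one]; exact hlu k)
      rwa [sub_add_cancel, map_one] at this
    rwa [map_mul, map_pow, hlam k, one_pow, one_mul] at h1
  obtain ⟨s, hs0, hs₁, hs₂⟩ := M.inj_multi hn hlam hlu
    (fun 𝔫 _ h𝔫 => M.triv_point hn hla hlb hη hNa hNb hH hu₂1 hd₂ hlam hlu hfam 𝔫 h𝔫)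
    (fun 𝔫 _ h𝔫 => M.inv.triv_point hn hla hlb hη hNa hNb hH hu₂1 hd₂ hlam hlu hfam 𝔫 h𝔫)
  have halg : IsAlgebraic K₀ (s ^ n * u₂) :=
    const_abs M.transc (chart_mono le_top x hs₁) (chart_mono le_top x⁻¹ hs₂)
  refine ⟨s * h, mul_ne_zero hs0 hh0, ?_⟩
  have hcF : algebraMap K₀ F c ≠ 0 := by rwa [Ne, map_eq_zero]
  have key : (s * h) ^ n * u ^ q = s ^ n * u₂ * (algebraMap K₀ F c)⁻¹ := by
    rw [eq_mul_inv_iff_mul_eq₀ hcF, hu₂]
    ring
  rw [key]
  exact halg.mul (isAlgebraic_algebraMap _).inv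

/-- **Goal of block K.** -/
theorem bpAbsK : BpAbsK := by
  intro F _ K₀ _ _ A₀ q x κ _ V ϖ E Eα Eβ Nα Nβ N₀ M n hn u hu hd hα hβ
  exact M.bp_abs hn hu hd hα hβ

end Fermat.Agent.S45.K

end
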